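/-
Program G / S37: the FORMAL reduction of `ModularCurve.SpecializationExists`.

`SpecializationExists N p J` asks, for every good prime `ℓ` and every `A` over `ℓ`, for a Hecke
module `J'`, a Hecke-equivariant map `sp : J →+ J'` and `F : J' →+ J'` such that `sp` kills
inertia, intertwines every Frobenius with `F`, is injective on `p`-power torsion, and
`F² - T_ℓ F + ℓ = 0` on ALL of `J'`.

`g37_specializationExists_of_red` shows that it is enough to have ANY additive map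
`red : J →+ Jt` (no Hecke structure on the target, no Hecke equivariance at all) with
 (R1) `red (σ • x) = red x` for `σ` in the inertia group,
 (R2) `red (σ • σ • x - T_ℓ • (σ • x) + ℓ • x) = 0` for every Frobenius `σ` at `A`,
 (R3) `red` injective on `p`-power torsion,
plus the existence of one Frobenius element.  (Take `J' := J ⧸ M`, `M` the Hecke submodule
spanned by the elements in (R1), (R2); `F` is induced by a Frobenius.)
-/
import Fermat.Prelude.Def_HeckeGalois_EichlerShimura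

set_option autoImplicit false

namespace Fermat.Agent.G37

open ModularCurve

variable {K L : Type*} [Field K] [Field L] [Algebra K L]

theorem g37_mem_inertiaSubgroupIn_iff (A : ValuationSubring L) (σ : L ≃ₐ[K] L) :
    σ ∈ A.inertiaSubgroupIn K ↔
      ∃ hσ : σ ∈ A.decompositionSubgroup K, ∀ x : IsLocalRing.ResidueField A,
        (⟨σ, hσ⟩ : A.decompositionSubgroup K) • x = x := by
  constructor
  · rintro ⟨⟨τ, hτ⟩, hmem, rfl⟩
    refine ⟨hτ, fun x => ?_⟩
    have h1 : MulSemiringAction.toRingAut (A.decompositionSubgroup K)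
        (IsLocalRing.ResidueField A) ⟨τ, hτ⟩ = 1 := hmem
    have := congrArg (fun f : RingAut (IsLocalRing.ResidueField A) => f x) h1
    simpa using this
  · rintro ⟨hσ, h⟩
    refine ⟨⟨σ, hσ⟩, ?_, rfl⟩
    show MulSemiringAction.toRingAut (A.decompositionSubgroup K)
        (IsLocalRing.ResidueField A) ⟨σ, hσ⟩ = 1
    ext x
    simpa using h x

/-- Two Frobenius elements differ by an element of the inertia group. -/
theorem g37_inv_mul_mem_inertia (A : ValuationSubring L) {σ τ : L ≃ₐ[K] L} {q : ℕ}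
    (hσ : A.IsFrobeniusAt σ q) (hτ : A.IsFrobeniusAt τ q) :
    σ⁻¹ * τ ∈ A.inertiaSubgroupIn K := by
  obtain ⟨hσm, hσx⟩ := hσ
  obtain ⟨hτm, hτx⟩ := hτ
  rw [g37_mem_inertiaSubgroupIn_iff]
  refine ⟨mul_mem (inv_mem hσm) hτm, fun x => ?_⟩
  have e : (⟨σ⁻¹ * τ, mul_mem (inv_mem hσm) hτm⟩ : A.decompositionSubgroup K) =
      (⟨σ, hσm⟩ : A.decompositionSubgroup K)⁻¹ * ⟨τ, hτm⟩ := rfl
  rw [e, mul_smul, hτx, inv_smul_eq_iff, hσx]

/-- A conjugate of a Frobenius element by an element of the decomposition group is a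
Frobenius element. -/
theorem g37_conj_isFrobeniusAt (A : ValuationSubring L) {σ g : L ≃ₐ[K] L} {q : ℕ}
    (hσ : A.IsFrobeniusAt σ q) (hg : g ∈ A.decompositionSubgroup K) :
    A.IsFrobeniusAt (g * σ * g⁻¹) q := by
  obtain ⟨hσm, hσx⟩ := hσ
  refine ⟨mul_mem (mul_mem hg hσm) (inv_mem hg), fun x => ?_⟩
  have e : (⟨g * σ * g⁻¹, mul_mem (mul_mem hg hσm) (inv_mem hg)⟩ : A.decompositionSubgroup K) =
      (⟨g, hg⟩ : A.decompositionSubgroup K) * ⟨σ, hσm⟩ * (⟨g, hg⟩ : A.decompositionSubgroup K)⁻¹ :=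
    rfl
  rw [e, mul_smul, mul_smul, hσx, smul_pow', smul_inv_smul]

/-- A conjugate of an inertia element by an element of the decomposition group is in the
inertia group. -/
theorem g37_conj_mem_inertia (A : ValuationSubring L) {σ g : L ≃ₐ[K] L}
    (hσ : σ ∈ A.inertiaSubgroupIn K) (hg : g ∈ A.decompositionSubgroup K) :
    g * σ * g⁻¹ ∈ A.inertiaSubgroupIn K := by
  rw [g37_mem_inertiaSubgroupIn_iff] at hσ ⊢
  obtain ⟨hσm, hσx⟩ := hσ
  refine ⟨mul_mem (mul_mem hg hσm) (inv_mem hg), fun x => ?_⟩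
  have e : (⟨g * σ * g⁻¹, mul_mem (mul_mem hg hσm) (inv_mem hg)⟩ : A.decompositionSubgroup K) =
      (⟨g, hg⟩ : A.decompositionSubgroup K) * ⟨σ, hσm⟩ * (⟨g, hg⟩ : A.decompositionSubgroup K)⁻¹ :=
    rfl
  rw [e, mul_smul, mul_smul, hσx, smul_inv_smul]

section Main

variable (N p : ℕ) (J : Type) [AddCommGroup J] [Module HeckeAlg J]
  [DistribMulAction (L ≃ₐ[K] L) J] [SMulCommClass (L ≃ₐ[K] L) HeckeAlg J]

/-- The generators of the relation module. -/
def g37Gens (A : ValuationSubring L) (ℓ : ℕ) (hℓ : ℓ.Prime) : Set J :=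
  {y | ∃ σ ∈ A.inertiaSubgroupIn K, ∃ x : J, y = σ • x - x} ∪
  {y | ∃ σ : L ≃ₐ[K] L, A.IsFrobeniusAt σ ℓ ∧
    ∃ x : J, y = σ • σ • x - heckeGen ⟨ℓ, hℓ⟩ • (σ • x) + ℓ • x}

variable {J}

theorem g37_smul_mem_gens (A : ValuationSubring L) (ℓ : ℕ) (hℓ : ℓ.Prime) (T : HeckeAlg) {y : J}
    (hy : y ∈ g37Gens (K := K) J A ℓ hℓ) : T • y ∈ g37Gens (K := K) J A ℓ hℓ := by
  have hc : ∀ (g : L ≃ₐ[K] L) (z : J), T • g • z = g • T • z := fun g z => (smul_comm g T z).symm
  rcases hy with ⟨σ, hσ, x, rfl⟩ | ⟨σ, hσ, x, rfl⟩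
  · left
    refine ⟨σ, hσ, T • x, ?_⟩
    rw [smul_sub, hc]
  · right
    refine ⟨σ, hσ, T • x, ?_⟩
    rw [smul_add, smul_sub, smul_comm T (heckeGen ⟨ℓ, hℓ⟩) (σ • x), hc σ (σ • x), hc σ x,
      smul_comm T ℓ x]

theorem g37_galois_smul_mem_gens (A : ValuationSubring L) (ℓ : ℕ) (hℓ : ℓ.Prime)
    {g : L ≃ₐ[K] L} (hg : g ∈ A.decompositionSubgroup K) {y : J}
    (hy : y ∈ g37Gens (K := K) J A ℓ hℓ) : g • y ∈ g37Gens (K := K) J A ℓ hℓ := by
  rcases hy with ⟨σ, hσ, x, rfl⟩ | ⟨σ, hσ, x, rfl⟩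
  · left
    have hconj : ∀ z : J, (g * σ * g⁻¹) • g • z = g • σ • z := fun z => by
      rw [mul_smul, mul_smul, inv_smul_smul]
    refine ⟨g * σ * g⁻¹, g37_conj_mem_inertia A hσ hg, g • x, ?_⟩
    rw [smul_sub, hconj]
  · right
    have hconj : ∀ z : J, (g * σ * g⁻¹) • g • z = g • σ • z := fun z => by
      rw [mul_smul, mul_smul, inv_smul_smul]
    refine ⟨g * σ * g⁻¹, g37_conj_isFrobeniusAt A hσ hg, g • x, ?_⟩
    rw [hconj x, hconj (σ • x), smul_add, smul_sub,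
      smul_comm g (heckeGen ⟨ℓ, hℓ⟩) (σ • x), smul_comm g ℓ x]

variable (J)

/-- The relation module. -/
noncomputable def g37Rel (A : ValuationSubring L) (ℓ : ℕ) (hℓ : ℓ.Prime) : Submodule HeckeAlg J :=
  Submodule.span HeckeAlg (g37Gens (K := K) J A ℓ hℓ)

variable {J}

theorem g37_red_eq_zero_of_mem {Jt : Type*} [AddCommGroup Jt] (red : J →+ Jt)
    (A : ValuationSubring L) (ℓ : ℕ) (hℓ : ℓ.Prime)
    (h1 : ∀ σ ∈ A.inertiaSubgroupIn K, ∀ x : J, red (σ • x) = red x)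
    (h2 : ∀ σ : L ≃ₐ[K] L, A.IsFrobeniusAt σ ℓ → ∀ x : J,
      red (σ • σ • x - heckeGen ⟨ℓ, hℓ⟩ • (σ • x) + ℓ • x) = 0)
    {m : J} (hm : m ∈ g37Rel (K := K) J A ℓ hℓ) : red m = 0 := by
  have hgen : ∀ y ∈ g37Gens (K := K) J A ℓ hℓ, red y = 0 := by
    rintro y (⟨σ, hσ, x, rfl⟩ | ⟨σ, hσ, x, rfl⟩)
    · rw [map_sub, h1 σ hσ x, sub_self]
    · exact h2 σ hσ x
  have key : ∀ T : HeckeAlg, red (T • m) = 0 := by
    induction hm using Submodule.span_induction with
    | mem y hy => exact fun T => hgen _ (g37_smul_mem_gens A ℓ hℓ T hy)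
    | zero => intro T; rw [smul_zero, map_zero]
    | add x y _ _ hx hy => intro T; rw [smul_add, map_add, hx T, hy T, add_zero]
    | smul a x _ hx => intro T; rw [smul_smul]; exact hx (T * a)
  simpa using key 1

theorem g37_galois_smul_mem_rel (A : ValuationSubring L) (ℓ : ℕ) (hℓ : ℓ.Prime)
    {g : L ≃ₐ[K] L} (hg : g ∈ A.decompositionSubgroup K) {m : J}
    (hm : m ∈ g37Rel (K := K) J A ℓ hℓ) : g • m ∈ g37Rel (K := K) J A ℓ hℓ := by
  induction hm using Submodule.span_induction with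
  | mem y hy => exact Submodule.subset_span (g37_galois_smul_mem_gens A ℓ hℓ hg hy)
  | zero => rw [smul_zero]; exact Submodule.zero_mem _
  | add x y _ _ hx hy => rw [smul_add]; exact Submodule.add_mem _ hx hy
  | smul a x _ hx => rw [smul_comm g a x]; exact Submodule.smul_mem _ a hx

/-- **Formal reduction of S37.**  `SpecializationExists` follows from the existence, for every
good `ℓ` and `A` over `ℓ`, of a Frobenius element and of ANY additive map `red` out of `J` that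
kills inertia, kills the Eichler-Shimura expressions `σ²x - T_ℓ σ x + ℓ x` (σ Frobenius) and is
injective on `p`-power torsion. -/
theorem g37_specializationExists_of_red
    (h : ∀ ℓ : ℕ, (hℓ : ℓ.Prime) → ¬ ℓ ∣ N * p → ∀ A : ValuationSubring L, A.LiesOverPrime ℓ →
      (∃ φ : L ≃ₐ[K] L, A.IsFrobeniusAt φ ℓ) ∧
      ∃ (Jt : Type) (_ : AddCommGroup Jt) (red : J →+ Jt),
        (∀ σ ∈ A.inertiaSubgroupIn K, ∀ x : J, red (σ • x) = red x) ∧
        (∀ σ : L ≃ₐ[K] L, A.IsFrobeniusAt σ ℓ → ∀ x : J,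
          red (σ • σ • x - heckeGen ⟨ℓ, hℓ⟩ • (σ • x) + ℓ • x) = 0) ∧
        (∀ x : J, (∃ n : ℕ, p ^ n • x = 0) → red x = 0 → x = 0)) :
    SpecializationExists (K := K) (L := L) N p J := by
  intro ℓ hℓ hℓNp A hA
  obtain ⟨⟨φ, hφ⟩, Jt, _, red, h1, h2, h3⟩ := h ℓ hℓ hℓNp A hA
  have hφD : φ ∈ A.decompositionSubgroup K := hφ.mem_decompositionSubgroup
  set M : Submodule HeckeAlg J := g37Rel (K := K) J A ℓ hℓ with hM
  -- the Frobenius as a Hecke-linear map
  let φl : J →ₗ[HeckeAlg] J := DistribSMul.toLinearMap HeckeAlg J φ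
  have hφM : M ≤ M.comap φl := fun m hm => g37_galois_smul_mem_rel A ℓ hℓ hφD hm
  let F : (J ⧸ M) →ₗ[HeckeAlg] (J ⧸ M) := M.mapQ M φl hφM
  refine ⟨J ⧸ M, inferInstance, inferInstance, M.mkQ.toAddMonoidHom, F.toAddMonoidHom, ?_, ?_⟩
  · refine ⟨fun T x => ?_, fun σ hσ x => ?_, fun σ hσ x => ?_, fun x hx hx0 => ?_⟩
    · exact map_smul M.mkQ T x
    · show M.mkQ (σ • x) = M.mkQ x
      rw [← sub_eq_zero, ← map_sub, Submodule.mkQ_apply, Submodule.Quotient.mk_eq_zero]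
      exact Submodule.subset_span (Or.inl ⟨σ, hσ, x, rfl⟩)
    · show M.mkQ (σ • x) = F (M.mkQ x)
      have hF : F (M.mkQ x) = M.mkQ (φ • x) := by
        simp only [F, Submodule.mkQ_apply, Submodule.mapQ_apply]
        rfl
      rw [hF, ← sub_eq_zero, ← map_sub, Submodule.mkQ_apply, Submodule.Quotient.mk_eq_zero]
      have hτ : φ⁻¹ * σ ∈ A.inertiaSubgroupIn K := g37_inv_mul_mem_inertia A hφ hσ
      have e : σ • x - φ • x = φ • ((φ⁻¹ * σ) • x - x) := by
        rw [smul_sub, ← mul_smul, mul_inv_cancel_left]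
      rw [e]
      exact g37_galois_smul_mem_rel A ℓ hℓ hφD
        (Submodule.subset_span (Or.inl ⟨φ⁻¹ * σ, hτ, x, rfl⟩))
    · have hxM : x ∈ M := by
        have : M.mkQ x = 0 := hx0
        rwa [Submodule.mkQ_apply, Submodule.Quotient.mk_eq_zero] at this
      exact h3 x hx (g37_red_eq_zero_of_mem red A ℓ hℓ h1 h2 hxM)
  · intro y
    obtain ⟨x, rfl⟩ := M.mkQ_surjective y
    have hF : ∀ z : J, F.toAddMonoidHom (M.mkQ z) = M.mkQ (φ • z) := by
      intro z
      simp only [F, Submodule.mkQ_apply]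
      rfl
    rw [hF, hF, ← map_smul, ← map_nsmul, ← map_sub, ← map_add, Submodule.mkQ_apply,
      Submodule.Quotient.mk_eq_zero]
    exact Submodule.subset_span (Or.inr ⟨φ, hφ, x, rfl⟩)

end Main

end Fermat.Agent.G37
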