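import Mathlib
import Fermat.Agent.G.Asm.HeckeGalois
import Fermat.Agent.G.FF.Main
import Fermat.Agent.G.Conj.Deg

/-!
# Program G / S37, small primes : THE DEGENERACY PULLBACK `α_a^* : J₀(N) → J₀(N a)`
(helper prefix `g37p`)

For `ℓ ∈ {2, 3}` and `a = 5 - ℓ ∤ N` the reduction map used in `g37_specializationExists_of_red`
is `red := reductionModL 𝔸 (N a) ∘ α_a^*`.  This file provides, for every `a` :
* `g37pPull N a : JZero N →+ JZero (N * a)`, the pullback of divisor classes along
  `heckeAlphaBar ℚ̄ N a` (inclusion of function fields `F(N) ⊂ F(N a)`), `g37pPull_mk`;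
* `g37p_pull_galois` : `α^* (σ • x) = σ • α^* x` for `σ ∈ Gal(ℚ̄/ℚ)`;
* `g37pPush N a : JZero (N * a) →+ JZero N` and `g37p_push_pull : α_* (α^* x) = [F(Na):F(N)] • x`;
* `g37p_pull_eq_zero : α^* x = 0 → (a + 1) • x = 0` for a prime `a ∤ N`.
-/

set_option autoImplicit false
set_option linter.unusedSectionVars false
set_option linter.unusedVariables false
set_option synthInstance.maxHeartbeats 400000
set_option linter.style.haveILetI false

noncomputable section

namespace Fermat.Agent.G

open ModularCurve AlgebraicCurve Fermat.Agent.S24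

/-! ### generic : `α_* α^* = [F' : F]` on divisors -/

section Generic

variable {K F F' : Type*} [Field K] [Field F] [Field F']
  [Algebra K F] [Algebra K F'] [Algebra F F'] [IsScalarTower K F F']
  [Algebra.IsIntegral F F'] [HasPrincipalDivisors K F']

theorem g37p_pushforward_pullback [SumRamificationInertia K F F'] (D : Divisor K F) :
    Divisor.pushforward F (Divisor.pullback F' D) = (Module.finrank F F' : ℤ) • D := by
  induction D using Finsupp.induction with
  | zero => simp
  | single_add v n D _ _ ih =>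
    rw [map_add, map_add, smul_add, ih]
    congr 1
    rw [Divisor.pullback_single, map_sum]
    have h1 : ∀ w ∈ v.fiber F', Divisor.pushforward F
        (Finsupp.single w (n * (w.ramificationIndex F : ℤ))) =
        Finsupp.single v (n * ((w.ramificationIndex F : ℤ) * (w.inertiaDeg F : ℤ))) := by
      intro w hw
      rw [Divisor.pushforward_single, Place.mem_fiber.mp hw, mul_assoc]
    rw [Finset.sum_congr rfl h1, ← Finsupp.single_finsetSum, ← Finset.mul_sum,
      SumRamificationInertia.sum_ramificationIndex_mul_inertiaDeg (K := K) (F := F) (F' := F') v,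
      Finsupp.smul_single, smul_eq_mul, mul_comm]

end Generic

/-! ### generic : pullback and pushforward of classes along a homomorphism -/

section Along

variable {K F F' : Type*} [Field K] [Field F] [Field F'] [Algebra K F] [Algebra K F']
variable [HasPrincipalDivisors K F']
variable (φ : F →ₐ[K] F') (hφ : φ.toRingHom.IsIntegral)

/-- pullback of divisors of degree `0` along `φ` -/
def g37pDegZeroPull (hFI : FundamentalIdentityAlong K φ hφ) :
    Divisor.degZero (K := K) (F := F) →+ Divisor.degZero (K := K) (F := F') :=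
  ((Divisor.pullbackAlong φ hφ).domRestrict (Divisor.degZero (K := K) (F := F))).codRestrict _
    (fun D => Divisor.pullbackAlong_mem_degZero φ hφ hFI D.2)

@[simp]
theorem coe_g37pDegZeroPull (hFI : FundamentalIdentityAlong K φ hφ)
    (D : Divisor.degZero (K := K) (F := F)) :
    (g37pDegZeroPull φ hφ hFI D : Divisor K F') = Divisor.pullbackAlong φ hφ (D : Divisor K F) :=
  rfl

/-- pullback of divisor classes along `φ` -/
def g37pPullAlong (hFI : FundamentalIdentityAlong K φ hφ) : Pic0 K F →+ Pic0 K F' :=
  QuotientAddGroup.map _ _ (g37pDegZeroPull φ hφ hFI) (by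
    rintro ⟨D, hD0⟩ hD
    simp only [AddSubgroup.mem_addSubgroupOf] at hD ⊢
    exact Divisor.isPrincipal_pullbackAlong φ hφ hD)

theorem g37pPullAlong_mk (hFI : FundamentalIdentityAlong K φ hφ)
    (D : Divisor.degZero (K := K) (F := F)) :
    g37pPullAlong φ hφ hFI (Pic0.mk D) = Pic0.mk (g37pDegZeroPull φ hφ hFI D) := rfl

omit [HasPrincipalDivisors K F'] in
/-- pushforward of divisors of degree `0` along `φ` -/
def g37pDegZeroPush :
    Divisor.degZero (K := K) (F := F') →+ Divisor.degZero (K := K) (F := F) :=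
  ((Divisor.pushforwardAlong φ hφ).domRestrict (Divisor.degZero (K := K) (F := F'))).codRestrict _
    (fun D => Divisor.pushforwardAlong_mem_degZero φ hφ D.2)

omit [HasPrincipalDivisors K F'] in
@[simp]
theorem coe_g37pDegZeroPush (D : Divisor.degZero (K := K) (F := F')) :
    (g37pDegZeroPush φ hφ D : Divisor K F) = Divisor.pushforwardAlong φ hφ (D : Divisor K F') :=
  rfl

omit [HasPrincipalDivisors K F'] in
/-- pushforward of divisor classes along `φ` -/
def g37pPushAlong (hfin : FiniteAlong K φ) (hN : NormFormulaAlong K φ hfin) :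
    Pic0 K F' →+ Pic0 K F :=
  QuotientAddGroup.map _ _ (g37pDegZeroPush φ hφ) (by
    rintro ⟨D, hD0⟩ hD
    simp only [AddSubgroup.mem_addSubgroupOf] at hD ⊢
    exact Divisor.isPrincipal_pushforwardAlong φ hφ hfin hN hD)

omit [HasPrincipalDivisors K F'] in
theorem g37pPushAlong_mk (hfin : FiniteAlong K φ) (hN : NormFormulaAlong K φ hfin)
    (D : Divisor.degZero (K := K) (F := F')) :
    g37pPushAlong φ hφ hfin hN (Pic0.mk D) = Pic0.mk (g37pDegZeroPush φ hφ D) := rfl

/-- `α_* α^* = [F' : F]` on classes. -/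
theorem g37p_pushAlong_pullAlong [IsAlgClosed K] [CharZero K] (hfin : FiniteAlong K φ)
    (hN : NormFormulaAlong K φ hfin) (hFI : FundamentalIdentityAlong K φ hφ) {t : F}
    (ht : IsSepGen K t) (x : Pic0 K F) :
    g37pPushAlong φ hφ hfin hN (g37pPullAlong φ hφ hFI x) = finrankAlong K φ • x := by
  obtain ⟨D, rfl⟩ := Pic0.mk_surjective x
  have hmk : ∀ (n : ℕ) (E : Divisor.degZero (K := K) (F := F)),
      Pic0.mk (n • E) = n • Pic0.mk E :=
    fun n E => map_nsmul (QuotientAddGroup.mk' _) n E
  rw [g37pPullAlong_mk, g37pPushAlong_mk, ← hmk]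
  refine congrArg Pic0.mk (Subtype.ext ?_)
  rw [coe_g37pDegZeroPush, coe_g37pDegZeroPull, AddSubgroup.coe_nsmul]
  letI := algebraAlong φ
  haveI := isScalarTower_along φ
  haveI := isIntegral_along φ hφ
  haveI : Module.Finite F F' := hfin
  haveI : SumRamificationInertia K F F' := gffa_sumRamificationInertia ht
  have h := g37p_pushforward_pullback (K := K) (F := F) (F' := F') (D : Divisor K F)
  rw [natCast_zsmul] at h
  exact h

variable {g : SemilinearAut K F} {g' : SemilinearAut K F'}

/-- the pullback of classes is equivariant for intertwined semilinear automorphisms. -/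
theorem g37p_pullAlong_smul (hFI : FundamentalIdentityAlong K φ hφ)
    (h : SemilinearAut.IntertwinesAlong φ.toRingHom g g') (x : Pic0 K F) :
    g37pPullAlong φ hφ hFI (g • x) = g' • g37pPullAlong φ hφ hFI x := by
  obtain ⟨D, rfl⟩ := Pic0.mk_surjective x
  rw [SemilinearAut.pic0_smul_mk, g37pPullAlong_mk, g37pPullAlong_mk,
    SemilinearAut.pic0_smul_mk]
  refine congrArg Pic0.mk (Subtype.ext ?_)
  rw [coe_g37pDegZeroPull, SemilinearAut.coe_degZeroSMulHom,
    SemilinearAut.coe_degZeroSMulHom, coe_g37pDegZeroPull]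
  exact gasmhg_pullbackAlong_smul φ hφ h D

end Along

/-! ### the modular instance -/

section Modular

local notation "Qb" => AlgebraicClosure ℚ

variable (N a : ℕ) [NeZero N] [NeZero a]

theorem g37p_alpha_fundamentalIdentity :
    haveI := gff_hasPrincipalDivisors (N * a)
    FundamentalIdentityAlong Qb (heckeAlphaBar Qb N a) (gff_alpha_integral N a) :=
  haveI := gff_hasPrincipalDivisors (N * a)
  gffa_along_fundamentalIdentity (heckeAlphaBar Qb N a) (gff_alpha_finite N a)
    (gff_alpha_integral N a) (isSepGen_jBar N)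

theorem g37p_alpha_normFormula :
    NormFormulaAlong Qb (heckeAlphaBar Qb N a) (gff_alpha_finite N a) :=
  gffa_along_normFormula (heckeAlphaBar Qb N a) (gff_alpha_finite N a) (isSepGen_jBar N)

/-- THE DEGENERACY PULLBACK `α_a^* : J₀(N) → J₀(N a)`. -/
def g37pPull : JZero N →+ JZero (N * a) :=
  haveI := gff_hasPrincipalDivisors (N * a)
  g37pPullAlong (heckeAlphaBar Qb N a) (gff_alpha_integral N a)
    (g37p_alpha_fundamentalIdentity N a)

/-- THE DEGENERACY PUSHFORWARD `α_{a,*} : J₀(N a) → J₀(N)`. -/
def g37pPush : JZero (N * a) →+ JZero N :=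
  g37pPushAlong (heckeAlphaBar Qb N a) (gff_alpha_integral N a) (gff_alpha_finite N a)
    (g37p_alpha_normFormula N a)

theorem g37pPull_mk (D : Divisor.degZero (K := Qb) (F := modularFunctionFieldBar N)) :
    haveI := gff_hasPrincipalDivisors (N * a)
    g37pPull N a (Pic0.mk D) = Pic0.mk (g37pDegZeroPull (heckeAlphaBar Qb N a)
      (gff_alpha_integral N a) (g37p_alpha_fundamentalIdentity N a) D) := rfl

/-- `α^*` commutes with the Galois action. -/
theorem g37p_pull_galois (σ : Qb ≃ₐ[ℚ] Qb) (x : JZero N) :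
    g37pPull N a (σ • x) = σ • g37pPull N a x := by
  haveI := gff_hasPrincipalDivisors (N * a)
  rw [galois_smul_pic0_def, galois_smul_pic0_def]
  exact g37p_pullAlong_smul (heckeAlphaBar Qb N a) (gff_alpha_integral N a)
    (g37p_alpha_fundamentalIdentity N a) (gasmhg_alpha_intertwines N a σ) x

/-- `α_* α^* = [F(N a) : F(N)]`. -/
theorem g37p_push_pull (x : JZero N) :
    g37pPush N a (g37pPull N a x) = finrankAlong Qb (heckeAlphaBar Qb N a) • x :=
  haveI := gff_hasPrincipalDivisors (N * a)
  g37p_pushAlong_pullAlong (heckeAlphaBar Qb N a) (gff_alpha_integral N a)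
    (gff_alpha_finite N a) (g37p_alpha_normFormula N a) (g37p_alpha_fundamentalIdentity N a)
    (isSepGen_jBar N) x

/-- for a prime `a ∤ N` : `α^* x = 0 ⟹ (a + 1) x = 0`. -/
theorem g37p_pull_eq_zero (ha : a.Prime) (haN : ¬ a ∣ N) (x : JZero N)
    (hx : g37pPull N a x = 0) : (a + 1) • x = 0 := by
  haveI : Fact a.Prime := ⟨ha⟩
  have h := g37p_push_pull N a x
  rw [hx, map_zero] at h
  have hd : finrankAlong Qb (heckeAlphaBar Qb N a) = a + 1 := gcjd_finrank N haN
  rw [hd] at h
  exact h.symm

end Modular

end Fermat.Agent.G
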