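/-
Program G / S37, small primes : THE HECKE OPERATOR ON FUNCTIONS COMMUTES WITH THE INCLUSION
`α : F_ℚ̄(N) ⊆ F_ℚ̄(N a)` (prefix `g37h_`):

  `g37h_heckeFun : gHeckeFun (N a) ℓ (α f) = α (gHeckeFun N ℓ f)`     (`ℓ ∤ N a`)

Both sides have the same `q`-expansion by the norm series identity `gcj_norm_series` at the two
levels, `N_α(β f) = f(q^ℓ) ∏_{i<ℓ} f(ζ^i q^{1/ℓ})`, and the product does not depend on the primitive
`ℓ`-th root of unity `ζ` (`g37h_prod_eq_of_primitive`).  No compositum / linear disjointness needed.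
-/
import Mathlib
import Fermat.Agent.G.S37.Pull
import Fermat.Agent.G.Conj.Series
import Fermat.Agent.G.Conj.Formal

set_option autoImplicit false
set_option linter.unusedSectionVars false
set_option linter.unusedVariables false
set_option synthInstance.maxHeartbeats 400000

noncomputable section

namespace Fermat.Agent.G

open ModularCurve AlgebraicCurve Fermat.Agent.S24

local notation "Qb" => AlgebraicClosure ℚ

/-! ### independence of `∏_{i<ℓ} u(ζ^i x)` of the primitive root -/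

section Root

variable {R : Type*} [CommRing R]

theorem g37h_rot_pow_mod {ℓ : ℕ} {ζ : Rˣ} (hζ : ζ ^ ℓ = 1) (n : ℕ) :
    ζ ^ (n % ℓ) = ζ ^ n := by
  conv_rhs => rw [← Nat.mod_add_div n ℓ]
  rw [pow_add, pow_mul, hζ, one_pow, mul_one]

/-- `∏_{i<ℓ} u(ζ^i x)` does not depend on the primitive `ℓ`-th root of unity `ζ` (`ℓ` prime). -/
theorem g37h_prod_eq_of_pow {ℓ : ℕ} [Fact ℓ.Prime] {ζ : Rˣ} (hζ : ζ ^ ℓ = 1) (m : ℕ)
    (hm : ¬ ℓ ∣ m) (u : LaurentSeries R) :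
    gcjfProd ℓ (ζ ^ m) u = gcjfProd ℓ ζ u := by
  have hℓ : ℓ.Prime := Fact.out
  have : NeZero ℓ := ⟨hℓ.ne_zero⟩
  unfold gcjfProd
  have h1 : ∀ i ∈ Finset.range ℓ, gcjfRot ((ζ ^ m) ^ i) u = gcjfRot (ζ ^ ((m * i) % ℓ)) u := by
    intro i _
    rw [g37h_rot_pow_mod hζ, pow_mul]
  rw [Finset.prod_congr rfl h1]
  refine Finset.prod_nbij (fun i => (m * i) % ℓ) ?_ ?_ ?_ (fun _ _ => rfl)
  · intro i _
    exact Finset.mem_range.2 (Nat.mod_lt _ hℓ.pos)
  · intro i hi j hj hij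
    have hi' := Finset.mem_range.1 hi
    have hj' := Finset.mem_range.1 hj
    have h2 : (m * i) % ℓ = (m * j) % ℓ := hij
    have h3 : m * i ≡ m * j [MOD ℓ] := h2
    have hcop : Nat.Coprime ℓ m := (Nat.Prime.coprime_iff_not_dvd hℓ).2 hm
    have h4 : i ≡ j [MOD ℓ] := Nat.ModEq.cancel_left_of_coprime hcop h3
    have h5 : i % ℓ = j % ℓ := h4
    rwa [Nat.mod_eq_of_lt hi', Nat.mod_eq_of_lt hj'] at h5
  · -- surjectivity from injectivity on a finite set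
    have hinj : Set.InjOn (fun i => (m * i) % ℓ) (Finset.range ℓ : Set ℕ) := by
      intro i hi j hj hij
      have hi' := Finset.mem_range.1 hi
      have hj' := Finset.mem_range.1 hj
      have h2 : (m * i) % ℓ = (m * j) % ℓ := hij
      have h3 : m * i ≡ m * j [MOD ℓ] := h2
      have hcop : Nat.Coprime ℓ m := (Nat.Prime.coprime_iff_not_dvd hℓ).2 hm
      have h4 : i ≡ j [MOD ℓ] := Nat.ModEq.cancel_left_of_coprime hcop h3
      have h5 : i % ℓ = j % ℓ := h4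
      rwa [Nat.mod_eq_of_lt hi', Nat.mod_eq_of_lt hj'] at h5
    have hmaps : Set.MapsTo (fun i => (m * i) % ℓ) (Finset.range ℓ : Set ℕ)
        (Finset.range ℓ : Set ℕ) := fun i _ => Finset.mem_coe.2
      (Finset.mem_range.2 (Nat.mod_lt _ hℓ.pos))
    exact Finset.surjOn_of_injOn_of_card_le _ hmaps hinj le_rfl

theorem g37h_prod_eq_of_primitive [IsDomain R] {ℓ : ℕ} [Fact ℓ.Prime] {ζ ζ' : Rˣ}
    (hζ : IsPrimitiveRoot ζ ℓ) (hζ' : IsPrimitiveRoot ζ' ℓ) (u : LaurentSeries R) :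
    gcjfProd ℓ ζ' u = gcjfProd ℓ ζ u := by
  have hℓ : ℓ.Prime := Fact.out
  have : NeZero ℓ := ⟨hℓ.ne_zero⟩
  have hζR : IsPrimitiveRoot (ζ : R) ℓ := IsPrimitiveRoot.coe_units_iff.2 hζ
  have hζ'R : ((ζ' : Rˣ) : R) ^ ℓ = 1 := by
    rw [← Units.val_pow_eq_pow_val, hζ'.pow_eq_one, Units.val_one]
  obtain ⟨m, hmlt, hmR⟩ := hζR.eq_pow_of_pow_eq_one hζ'R
  have hm : ζ ^ m = ζ' := Units.ext (by rw [Units.val_pow_eq_pow_val]; exact hmR)
  have hmdvd : ¬ ℓ ∣ m := by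
    intro hd
    have hm0 : m = 0 := Nat.eq_zero_of_dvd_of_lt hd hmlt
    rw [hm0, pow_zero] at hm
    have := hζ'.pow_eq_one
    have h1 : ℓ = 1 := by
      have := (hm ▸ hζ').eq_orderOf
      rw [orderOf_one] at this
      exact this
    exact hℓ.one_lt.ne' h1
  rw [← hm]
  exact g37h_prod_eq_of_pow hζ.pow_eq_one m hmdvd u

end Root

/-! ### the Hecke operator on functions commutes with the inclusion `F(N) ⊆ F(N a)` -/

section Fun

variable (N a : ℕ) [NeZero N] [NeZero a]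

theorem g37h_heckeFun {ℓ : ℕ} [Fact ℓ.Prime] (hℓNa : ¬ ℓ ∣ N * a)
    (f : modularFunctionFieldBar N) :
    haveI : NeZero ℓ := ⟨(Fact.out : ℓ.Prime).ne_zero⟩
    gHeckeFun (N * a) ℓ (heckeAlphaBar Qb N a f) = heckeAlphaBar Qb N a (gHeckeFun N ℓ f) := by
  have : NeZero ℓ := ⟨(Fact.out : ℓ.Prime).ne_zero⟩
  have hℓN : ¬ ℓ ∣ N := fun h => hℓNa (h.mul_right a)
  obtain ⟨ζ₀, hζ₀, h0⟩ := gcj_norm_series N hℓN
  obtain ⟨ζ₁, hζ₁, h1⟩ := gcj_norm_series (N * a) hℓNa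
  apply Subtype.ext
  apply qExpand_injective (R := Qb) ℓ
  rw [h1, coe_heckeAlphaBar, coe_heckeAlphaBar, h0, g37h_prod_eq_of_primitive hζ₀ hζ₁]

end Fun

end Fermat.Agent.G
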