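/-
Program G / S37: wiring of the frozen statement S37 from the four honest inputs
 (I1) `ReductionInputsModL A N` for every `A` over a prime `ℓ ∤ N`,
 (I2) the statement of S18 (injectivity of `reductionModL` on prime-to-`ℓ` torsion),
 (I3) `reductionModL A N (σ • x) = reductionModL A N x` for `σ` in the inertia group of `A`,
 (I4) the Eichler-Shimura congruence in the form
      `reductionModL A N (σ • σ • x - T_ℓ (σ • x) + ℓ • x) = 0` for every Frobenius `σ` at `A`.
NO Hecke structure on the special fibre and NO compatibility of the reduction map with the Hecke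
operators `T_r`, `r ≠ ℓ`, is needed (see `Formal.lean`).
-/
import Fermat.Agent.G.S37.Formal
import Fermat.Agent.S54.ExistsFrobenius
import Fermat.Statements.S37
import Fermat.Prelude.Def_ModularCurve_ReductionModL

set_option autoImplicit false

namespace Fermat.Agent.G37

open ModularCurve

theorem g37_result_of_inputs (N p : ℕ) [NeZero N] (hcomm : ModularCurve.HeckeOperatorsCommuteBar N)
    (hI1 : ∀ ℓ : ℕ, ℓ.Prime → ¬ ℓ ∣ N → ∀ A : ValuationSubring (AlgebraicClosure ℚ),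
      A.LiesOverPrime ℓ → ModularCurve.ReductionInputsModL A N)
    (hI2 : ∀ {ℓ : ℕ} [Fact ℓ.Prime] (_ : ¬ ℓ ∣ N) (A : ValuationSubring (AlgebraicClosure ℚ))
      (_ : A.LiesOverPrime ℓ) (_ : ModularCurve.ReductionInputsModL A N) (m : ℕ) (_ : ¬ ℓ ∣ m)
      (z : ModularCurve.JZero N) (_ : m • z = 0) (_ : ModularCurve.reductionModL A N z = 0), z = 0)
    (hI3 : ∀ ℓ : ℕ, ℓ.Prime → ¬ ℓ ∣ N → ∀ A : ValuationSubring (AlgebraicClosure ℚ),
      A.LiesOverPrime ℓ → ∀ σ ∈ A.inertiaSubgroupIn ℚ, ∀ x : ModularCurve.JZero N,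
        ModularCurve.reductionModL A N (σ • x) = ModularCurve.reductionModL A N x)
    (hI4 : ∀ (ℓ : ℕ) (hℓ : ℓ.Prime), ¬ ℓ ∣ N → ∀ A : ValuationSubring (AlgebraicClosure ℚ),
      A.LiesOverPrime ℓ → ∀ σ : AlgebraicClosure ℚ ≃ₐ[ℚ] AlgebraicClosure ℚ, A.IsFrobeniusAt σ ℓ →
        ∀ x : ModularCurve.JZero N,
          ModularCurve.reductionModL A N
            (σ • σ • x - ModularCurve.heckeOperatorBar N ⟨ℓ, hℓ⟩ (σ • x) + ℓ • x) = 0) :
    letI := ModularCurve.heckeModuleBar N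
    ∀ (_ : SMulCommClass (AlgebraicClosure ℚ ≃ₐ[ℚ] AlgebraicClosure ℚ) ModularCurve.HeckeAlg
      (ModularCurve.JZero N)),
      ModularCurve.SpecializationExists (K := ℚ) (L := AlgebraicClosure ℚ) N p
        (ModularCurve.JZero N) := by
  let _ := ModularCurve.heckeModuleBar N
  intro _
  refine g37_specializationExists_of_red (J := ModularCurve.JZero N) N p ?_
  intro ℓ hℓ hℓNp A hA
  have hℓN : ¬ ℓ ∣ N := fun h => hℓNp (h.mul_right p)
  have hℓp : ¬ ℓ ∣ p := fun h => hℓNp (h.mul_left N)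
  refine ⟨Fermat.Agent.S54.exists_isFrobeniusAt_algebraicClosure A hℓ hA,
    ModularCurve.JZeroC (IsLocalRing.ResidueField A) N, inferInstance,
    ModularCurve.reductionModL A N, hI3 ℓ hℓ hℓN A hA, ?_, ?_⟩
  · intro σ hσ x
    have := hI4 ℓ hℓ hℓN A hA σ hσ x
    rwa [← ModularCurve.heckeModuleBar_heckeGen_smul hcomm] at this
  · rintro x ⟨n, hn⟩ hx
    have : Fact ℓ.Prime := ⟨hℓ⟩
    exact hI2 hℓN A hA (hI1 ℓ hℓ hℓN A hA) (p ^ n)
      (fun h => hℓp (hℓ.dvd_of_dvd_pow h)) x hn hx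

end Fermat.Agent.G37
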