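/-
Program G / S37: THE TOP WITH A CHANGE OF LEVEL (plan (B) of board message 1748, for `ℓ ∈ {2, 3}`,
`a = 5 - ℓ ∤ N`).

For a prime `ℓ ∤ N` and `𝔸` over `ℓ` the formal reduction `g37_specializationExists_of_red` accepts
ANY additive `red : J₀(N)(ℚ̄) →+ Jt` with (R1) `red` kills inertia, (R2) `red` kills the
Eichler-Shimura expressions, (R3) `red` is injective on `p`-power torsion.  Besides
`red = reductionModL 𝔸 N` (needs `ReductionInputsModL 𝔸 N`) we allow

  `red = reductionModL 𝔸 (N a) ∘ pull`,   `pull : J₀(N) →+ J₀(N a)`  (`G37PullExists N a ℓ`) :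

`pull` Galois-equivariant (R1 from `ghr_I3` at level `N a`), `T_ℓ`-equivariant (R2 from `ghr_I4` at
level `N a`), with kernel killed by a power of `ℓ` (R3 from `S18.result` at level `N a`, `ℓ ∤ p`).
-/
import Fermat.Agent.G.S37.Wiring
import Fermat.Agent.G.Kron.Main
import Fermat.Agent.G.FF.Main
import Fermat.Agent.S18

set_option autoImplicit false

namespace Fermat.Agent.G37

open ModularCurve Fermat.Agent.G

/-- THE PULL DATA from level `N` to level `N a` at the prime `ℓ` : an additive map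
`J₀(N)(ℚ̄) →+ J₀(N a)(ℚ̄)` commuting with `Gal(ℚ̄/ℚ)` and with `T_ℓ`, whose kernel is killed by a
power of `ℓ`. -/
def G37PullExists (N a ℓ : ℕ) [NeZero N] [NeZero a] (hℓ : ℓ.Prime) : Prop :=
  ∃ pull : JZero N →+ JZero (N * a),
    (∀ (σ : AlgebraicClosure ℚ ≃ₐ[ℚ] AlgebraicClosure ℚ) (x : JZero N),
      pull (σ • x) = σ • pull x) ∧
    (∀ x : JZero N, pull (heckeOperatorBar N ⟨ℓ, hℓ⟩ x) =
      heckeOperatorBar (N * a) ⟨ℓ, hℓ⟩ (pull x)) ∧
    ∃ k : ℕ, ∀ x : JZero N, pull x = 0 → ℓ ^ k • x = 0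

/-- coprime torsion -/
theorem g37_eq_zero_of_coprime_smul {J : Type*} [AddCommGroup J] {m n : ℕ} (h : Nat.Coprime m n)
    {x : J} (hm : m • x = 0) (hn : n • x = 0) : x = 0 := by
  have h1 : ((m : ℤ) * Nat.gcdA m n + (n : ℤ) * Nat.gcdB m n) • x = 0 := by
    rw [add_smul, mul_comm (m : ℤ), mul_comm (n : ℤ), mul_smul, mul_smul, natCast_zsmul,
      natCast_zsmul, hm, hn, smul_zero, smul_zero, add_zero]
  rw [← Nat.gcd_eq_gcd_ab, h, Nat.cast_one, one_smul] at h1
  exact h1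

theorem g37_result_of_pull (N p : ℕ) [NeZero N] (hcomm : ModularCurve.HeckeOperatorsCommuteBar N)
    (hI1 : ∀ (ℓ : ℕ) (hℓ : ℓ.Prime), ¬ ℓ ∣ N → ∀ A : ValuationSubring (AlgebraicClosure ℚ),
      A.LiesOverPrime ℓ →
        ModularCurve.ReductionInputsModL A N ∨
        ∃ (a : ℕ) (_ : NeZero a), ¬ ℓ ∣ N * a ∧ ModularCurve.ReductionInputsModL A (N * a) ∧
          G37PullExists N a ℓ hℓ) :
    letI := ModularCurve.heckeModuleBar N
    ∀ (_ : SMulCommClass (AlgebraicClosure ℚ ≃ₐ[ℚ] AlgebraicClosure ℚ) ModularCurve.HeckeAlg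
      (ModularCurve.JZero N)),
      ModularCurve.SpecializationExists (K := ℚ) (L := AlgebraicClosure ℚ) N p
        (ModularCurve.JZero N) := by
  let _ := ModularCurve.heckeModuleBar N
  intro _
  refine g37_specializationExists_of_red (J := ModularCurve.JZero N) N p ?_
  intro ℓ hℓ hℓNp A hA
  have hℓN : ¬ ℓ ∣ N := fun h => hℓNp (h.mul_right p)
  have hℓp : ¬ ℓ ∣ p := fun h => hℓNp (h.mul_left N)
  have : Fact ℓ.Prime := ⟨hℓ⟩
  have : NeZero ℓ := ⟨hℓ.ne_zero⟩
  refine ⟨Fermat.Agent.S54.exists_isFrobeniusAt_algebraicClosure A hℓ hA, ?_⟩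
  rcases hI1 ℓ hℓ hℓN A hA with h | ⟨a, _, hℓNa, h, pull, hgal, hhecke, k, hker⟩
  · refine ⟨ModularCurve.JZeroC (IsLocalRing.ResidueField A) N, inferInstance,
      ModularCurve.reductionModL A N, ghr_I3 N ℓ hℓ hℓN A hA h, ?_, ?_⟩
    · intro σ hσ x
      have := ghr_I4 N ℓ hℓ hℓN A hA h (gff_heckeInputs N ℓ hℓ) σ hσ x
      rwa [← ModularCurve.heckeModuleBar_heckeGen_smul hcomm] at this
    · rintro x ⟨n, hn⟩ hx
      exact Fermat.Agent.S18.result N hℓN A hA h (p ^ n)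
        (fun h => hℓp (hℓ.dvd_of_dvd_pow h)) x hn hx
  · refine ⟨ModularCurve.JZeroC (IsLocalRing.ResidueField A) (N * a), inferInstance,
      (ModularCurve.reductionModL A (N * a)).comp pull, ?_, ?_, ?_⟩
    · intro σ hσ x
      show ModularCurve.reductionModL A (N * a) (pull (σ • x)) =
        ModularCurve.reductionModL A (N * a) (pull x)
      rw [hgal]
      exact ghr_I3 (N * a) ℓ hℓ hℓNa A hA h σ hσ (pull x)
    · intro σ hσ x
      show ModularCurve.reductionModL A (N * a) (pull _) = 0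
      rw [ModularCurve.heckeModuleBar_heckeGen_smul hcomm, map_add, map_sub, map_nsmul, hhecke,
        hgal, hgal]
      exact ghr_I4 (N * a) ℓ hℓ hℓNa A hA h (gff_heckeInputs (N * a) ℓ hℓ) σ hσ (pull x)
    · rintro x ⟨n, hn⟩ hx
      have hpx : pull x = 0 :=
        Fermat.Agent.S18.result (N * a) hℓNa A hA h (p ^ n)
          (fun h => hℓp (hℓ.dvd_of_dvd_pow h)) (pull x)
          (by rw [← map_nsmul, hn, map_zero]) hx
      have hcop : Nat.Coprime (ℓ ^ k) (p ^ n) :=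
        Nat.Coprime.pow k n ((Nat.Prime.coprime_iff_not_dvd hℓ).2 hℓp)
      exact g37_eq_zero_of_coprime_smul hcop (hker x hpx) hn

end Fermat.Agent.G37
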