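/-
Program G / S37, small primes : THE DEGENERACY PULLBACK COMMUTES WITH `T_ℓ` (prefix `g37h_`)

  `g37p_pull_hecke : α^* (T_ℓ x) = T_ℓ (α^* x)`    (`α^* = g37pPull N a : J₀(N) → J₀(N a)`, `ℓ ∤ N a`).

On divisors `Ψ := α^* ∘ T_ℓ^{(N)} - T_ℓ^{(N a)} ∘ α^*` kills principal divisors (`g37h_heckeFun`,
`gff_correspondence_ord`, `gff_pullbackAlong_ord`) and is bounded on single places, hence vanishes on
divisors of degree `0` by THE VANISHING PRINCIPLE `ghrm_vanish`.
-/
import Mathlib
import Fermat.Agent.G.S37.Pull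
import Fermat.Agent.G.S37.HeckeFun
import Fermat.Agent.G.Kron.Main

set_option autoImplicit false
set_option linter.unusedSectionVars false
set_option linter.unusedVariables false
set_option synthInstance.maxHeartbeats 400000
set_option linter.style.haveILetI false

noncomputable section

namespace Fermat.Agent.G

open ModularCurve AlgebraicCurve Fermat.Agent.S24

local notation "Qb" => AlgebraicClosure ℚ

section PullHecke

variable (N a : ℕ) [NeZero N] [NeZero a]

/-- the pullback of a single place along `α` has `ℓ¹`-norm `[F(N a) : F(N)]` -/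
theorem g37h_norm1_pull_single (P : Place Qb (modularFunctionFieldBar N)) :
    haveI := gff_hasPrincipalDivisors (N * a)
    ghrNorm1 (Divisor.pullbackAlong (heckeAlphaBar Qb N a) (gff_alpha_integral N a)
      (Finsupp.single P 1)) ≤ finrankAlong Qb (heckeAlphaBar Qb N a) := by
  haveI := gff_hasPrincipalDivisors (N * a)
  have hdeg : ∀ Q : Place Qb (modularFunctionFieldBar (N * a)), Q.deg = 1 :=
    fun Q => (isSepGen_jBar (N * a)).deg_eq_one Q
  have hdegN : ∀ Q : Place Qb (modularFunctionFieldBar N), Q.deg = 1 :=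
    fun Q => (isSepGen_jBar N).deg_eq_one Q
  have hE : 0 ≤ Divisor.pullbackAlong (heckeAlphaBar Qb N a) (gff_alpha_integral N a)
      (Finsupp.single P 1) := by
    letI := algebraAlong (heckeAlphaBar Qb N a)
    haveI := isScalarTower_along (heckeAlphaBar Qb N a)
    haveI := isIntegral_along (heckeAlphaBar Qb N a) (gff_alpha_integral N a)
    refine ghrn_pullback_nonneg _ ?_
    rw [Finsupp.le_def]
    intro Q
    rw [Finsupp.coe_zero, Pi.zero_apply]
    exact Finsupp.single_nonneg.2 zero_le_one Q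
  have h1 := ghrb_degree_eq_norm1 hdeg _ hE
  have h2 := Divisor.degree_pullbackAlong (heckeAlphaBar Qb N a) (gff_alpha_integral N a)
    (g37p_alpha_fundamentalIdentity N a) (Finsupp.single P 1)
  rw [Divisor.degree_single, hdegN, Nat.cast_one, mul_one, mul_one] at h2
  rw [h1] at h2
  exact le_of_eq (by exact_mod_cast h2)

/-- on divisors of degree `0` : `α^* T_ℓ = T_ℓ α^*`. -/
theorem g37h_pull_hecke_div {ℓ : ℕ} [NeZero ℓ] (hℓ : ℓ.Prime) (hℓNa : ¬ ℓ ∣ N * a)
    (hα : HeckeAlphaBarIntegral Qb N ℓ) (hβ : HeckeBetaBarIntegral Qb N ℓ)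
    (hα' : HeckeAlphaBarIntegral Qb (N * a) ℓ) (hβ' : HeckeBetaBarIntegral Qb (N * a) ℓ)
    [HasPrincipalDivisors Qb (modularFunctionFieldBar (N * ℓ))]
    [HasPrincipalDivisors Qb (modularFunctionFieldBar (N * a * ℓ))]
    [HasPrincipalDivisors Qb (modularFunctionFieldBar (N * a))]
    (D : Divisor Qb (modularFunctionFieldBar N))
    (hD : D ∈ Divisor.degZero (K := Qb) (F := modularFunctionFieldBar N)) :
    Divisor.pullbackAlong (heckeAlphaBar Qb N a) (gff_alpha_integral N a) (heckeDivBar hα hβ D) =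
      heckeDivBar hα' hβ' (Divisor.pullbackAlong (heckeAlphaBar Qb N a) (gff_alpha_integral N a) D) := by
  have : Fact ℓ.Prime := ⟨hℓ⟩
  obtain ⟨-, -, -, hfin, -, hN⟩ := gff_heckeInputs N ℓ hℓ
  obtain ⟨-, -, -, hfin', -, hN'⟩ := gff_heckeInputs (N * a) ℓ hℓ
  set pull := Divisor.pullbackAlong (heckeAlphaBar Qb N a) (gff_alpha_integral N a) with hpull
  have key := ghrm_vanish N (pull.comp (heckeDivBar hα hβ) - (heckeDivBar hα' hβ').comp pull)
    (fun E hE => by
      show pull (heckeDivBar hα hβ E) - heckeDivBar hα' hβ' (pull E) = 0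
      obtain ⟨f, hf, hEf⟩ := hE
      rw [sub_eq_zero]
      ext w
      have h1 : ∀ P, (heckeDivBar hα hβ E) P = P.ord (gHeckeFun N ℓ f) := by
        intro P
        have h := gff_correspondence_ord (heckeBetaBar Qb N ℓ) (heckeAlphaBar Qb N ℓ) hβ hα hfin hN
          E 1 f hf (fun v => by rw [one_mul, hEf]) P
        rw [one_mul] at h
        exact h
      have h2 : pull (heckeDivBar hα hβ E) w =
          w.ord (heckeAlphaBar Qb N a (gHeckeFun N ℓ f)) :=
        gff_pullbackAlong_ord (heckeAlphaBar Qb N a) (gff_alpha_integral N a) _ _ h1 w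
      have h3 : ∀ v, pull E v = v.ord (heckeAlphaBar Qb N a f) := fun v =>
        gff_pullbackAlong_ord (heckeAlphaBar Qb N a) (gff_alpha_integral N a) E f hEf v
      have hf' : heckeAlphaBar Qb N a f ≠ 0 := (map_ne_zero _).2 hf
      have h4 : heckeDivBar hα' hβ' (pull E) w =
          w.ord (gHeckeFun (N * a) ℓ (heckeAlphaBar Qb N a f)) := by
        have h := gff_correspondence_ord (heckeBetaBar Qb (N * a) ℓ) (heckeAlphaBar Qb (N * a) ℓ)
          hβ' hα' hfin' hN' (pull E) 1 _ hf' (fun v => by rw [one_mul, h3]) w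
        rw [one_mul] at h
        exact h
      rw [h2, h4, g37h_heckeFun N a hℓNa f])
    (finrankAlong Qb (heckeBetaBar Qb N ℓ) * finrankAlong Qb (heckeAlphaBar Qb N a) +
      finrankAlong Qb (heckeAlphaBar Qb N a) * finrankAlong Qb (heckeBetaBar Qb (N * a) ℓ))
    (fun P => by
      show ghrNorm1 (pull (heckeDivBar hα hβ (Finsupp.single P 1)) -
        heckeDivBar hα' hβ' (pull (Finsupp.single P 1))) ≤ _
      refine (ghrm_norm1_sub_le _ _).trans (add_le_add ?_ ?_)
      · refine (ghrb_norm1_map_le pull _ (g37h_norm1_pull_single N a) _).trans ?_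
        exact Nat.mul_le_mul_right _ (ghr_norm1_heckeDiv_single_le N ℓ hℓ hα hβ P)
      · refine (ghrb_norm1_map_le (heckeDivBar hα' hβ') _
          (ghr_norm1_heckeDiv_single_le (N * a) ℓ hℓ hα' hβ') _).trans ?_
        exact Nat.mul_le_mul_right _ (g37h_norm1_pull_single N a P))
    D hD
  exact sub_eq_zero.mp key

/-- (R2 input) `α^*` commutes with `T_ℓ` for `ℓ ∤ N a`. -/
theorem g37p_pull_hecke {ℓ : ℕ} (hℓ : ℓ.Prime) (hℓNa : ¬ ℓ ∣ N * a) (x : JZero N) :
    g37pPull N a (heckeOperatorBar N ⟨ℓ, hℓ⟩ x) =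
      heckeOperatorBar (N * a) ⟨ℓ, hℓ⟩ (g37pPull N a x) := by
  have : NeZero ℓ := ⟨hℓ.ne_zero⟩
  haveI := gff_hasPrincipalDivisors (N * a)
  obtain ⟨hα, hβ, hP, hfin, hFI, hN⟩ := gff_heckeInputs N ℓ hℓ
  obtain ⟨hα', hβ', hP', hfin', hFI', hN'⟩ := gff_heckeInputs (N * a) ℓ hℓ
  haveI := hP
  haveI := hP'
  obtain ⟨D, rfl⟩ := Pic0.mk_surjective x
  have hT : heckeOperatorBar N ⟨ℓ, hℓ⟩ (Pic0.mk D) =
      Pic0.mk (Pic0.degZeroCorrespondence (heckeBetaBar Qb N ℓ) (heckeAlphaBar Qb N ℓ) hβ hα hFI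
        D) := by
    rw [heckeOperatorBar_apply]
    show heckeOperatorAlong Qb N ℓ (Pic0.mk _) = _
    rw [heckeOperatorAlong_eq hα hβ hFI hfin hN]
    rfl
  have hT' : ∀ E : Divisor.degZero (K := Qb) (F := modularFunctionFieldBar (N * a)),
      heckeOperatorBar (N * a) ⟨ℓ, hℓ⟩ (Pic0.mk E) =
      Pic0.mk (Pic0.degZeroCorrespondence (heckeBetaBar Qb (N * a) ℓ) (heckeAlphaBar Qb (N * a) ℓ)
        hβ' hα' hFI' E) := by
    intro E
    rw [heckeOperatorBar_apply]
    show heckeOperatorAlong Qb (N * a) ℓ (Pic0.mk _) = _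
    rw [heckeOperatorAlong_eq hα' hβ' hFI' hfin' hN']
    rfl
  rw [hT, g37pPull_mk, g37pPull_mk, hT']
  refine congrArg Pic0.mk (Subtype.ext ?_)
  rw [coe_g37pDegZeroPull, Pic0.coe_degZeroCorrespondence, Pic0.coe_degZeroCorrespondence,
    coe_g37pDegZeroPull]
  exact g37h_pull_hecke_div N a hℓ hℓNa hα hβ hα' hβ' (D : Divisor Qb (modularFunctionFieldBar N)) D.2

end PullHecke

end Fermat.Agent.G
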