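/-
Program G / S37: THE TOP.  The frozen statement S37 from
* `grd_reductionInputs_dvd` (package G/Red) : `ReductionInputsModL 𝔸 M` for `ℓ ∤ M` as soon as
  `ℓ ≥ 5` or `(5 - ℓ) ∣ M`;
* for `ℓ ∈ {2, 3}`, `a = 5 - ℓ ∤ N` : the degeneracy pullback `g37pPull N a : J₀(N) → J₀(N a)`
  (`G/S37/Pull.lean`, `G/S37/PullHecke.lean`) and `g37_result_of_pull` (`G/S37/Level.lean`).
-/
import Fermat.Agent.G.S37.Level
import Fermat.Agent.G.S37.Pull
import Fermat.Agent.G.S37.PullHecke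
import Fermat.Agent.G.Red.Spec

set_option autoImplicit false

namespace Fermat.Agent.G37

open ModularCurve Fermat.Agent.G

/-- the pull data for `(ℓ, a) = (2, 3)` or `(3, 2)`, `a ∤ N`. -/
theorem g37_pullExists (N a ℓ : ℕ) [NeZero N] [NeZero a] (hℓ : ℓ.Prime) (hℓNa : ¬ ℓ ∣ N * a)
    (ha : (ℓ = 2 ∧ a = 3) ∨ (ℓ = 3 ∧ a = 2)) (haN : ¬ a ∣ N) : G37PullExists N a ℓ hℓ := by
  have hap : a.Prime := by
    rcases ha with ⟨-, rfl⟩ | ⟨-, rfl⟩
    · exact Nat.prime_three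
    · exact Nat.prime_two
  obtain ⟨k, hk⟩ : ∃ k : ℕ, ℓ ^ k = a + 1 := by
    rcases ha with ⟨rfl, rfl⟩ | ⟨rfl, rfl⟩
    · exact ⟨2, rfl⟩
    · exact ⟨1, rfl⟩
  refine ⟨g37pPull N a, g37p_pull_galois N a, g37p_pull_hecke N a hℓ hℓNa, k, fun x hx => ?_⟩
  rw [hk]
  exact g37p_pull_eq_zero N a hap haN x hx

theorem g37_result (N p : ℕ) [NeZero N] (hcomm : ModularCurve.HeckeOperatorsCommuteBar N) :
    letI := ModularCurve.heckeModuleBar N
    ∀ (_ : SMulCommClass (AlgebraicClosure ℚ ≃ₐ[ℚ] AlgebraicClosure ℚ) ModularCurve.HeckeAlg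
      (ModularCurve.JZero N)),
      ModularCurve.SpecializationExists (K := ℚ) (L := AlgebraicClosure ℚ) N p
        (ModularCurve.JZero N) := by
  refine g37_result_of_pull N p hcomm ?_
  intro ℓ hℓ hℓN A hA
  have : Fact ℓ.Prime := ⟨hℓ⟩
  by_cases h : ℓ < 5 → (5 - ℓ) ∣ N
  · exact Or.inl (grd_reductionInputs_dvd N A hℓN hA h)
  · right
    rw [Classical.not_imp] at h
    obtain ⟨hlt, haN⟩ := h
    have h23 : ℓ = 2 ∨ ℓ = 3 := by
      have h2 := hℓ.two_le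
      interval_cases ℓ
      · exact Or.inl rfl
      · exact Or.inr rfl
      · exact absurd hℓ (by decide)
    have ha : (ℓ = 2 ∧ 5 - ℓ = 3) ∨ (ℓ = 3 ∧ 5 - ℓ = 2) := by
      rcases h23 with rfl | rfl
      · exact Or.inl ⟨rfl, rfl⟩
      · exact Or.inr ⟨rfl, rfl⟩
    have hane : NeZero (5 - ℓ) := ⟨by omega⟩
    have hℓa : ¬ ℓ ∣ 5 - ℓ := by
      rcases h23 with rfl | rfl
      · decide
      · decide
    have hℓNa : ¬ ℓ ∣ N * (5 - ℓ) := fun hd =>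
      (hℓ.dvd_mul.1 hd).elim hℓN hℓa
    exact ⟨5 - ℓ, hane, hℓNa,
      grd_reductionInputs_dvd (N * (5 - ℓ)) A hℓNa hA (fun _ => dvd_mul_left _ _),
      g37_pullExists N (5 - ℓ) ℓ hℓ hℓNa ha haN⟩

end Fermat.Agent.G37
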